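/-
Programme MAZ (S15), Selmer core, brick L-r-T (667, helper64): the LOCAL core of the base case
"trivial piece".

`X` a flat local module for `G_p` (`TW/B5/Iface.IsFlatLocalModule`), killed by `p` (`p` odd), with a
subgroup `Y` such that EVERY `τ ∈ G_p` fixes `Y` pointwise and acts trivially on `X / Y`.  Then

* `red0_subset_one` : the only point of the Hopf algebra reducing to the identity is the identity
  (`CE46.Toolkit.statementF2` twice: `M = all points ⊇ N = points of Y ⊇ {1}`);
* `act_eq_of_isInertialAlg` : every `g ∈ G_p` which moves the integral ALGEBRAIC numbers (the image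
  of `ℚ̄`) by elements of the maximal ideal acts trivially on `X` (the values of the points of a finite
  Hopf algebra over `ℤ_(p)` are algebraic, `FlatTransport.exists_embZ_eq`).
-/
import Mathlib
import Fermat.Agent.TW.B5.CT3Ord37
import Fermat.Agent.TW.CE46.Toolkit
import Fermat.Agent.TW.B5.Adapt57.FlatTransport

set_option autoImplicit false

namespace Fermat.Agent.MAZ.BaseTriv64

open Fermat.Agent.TW.B5 Fermat.Agent.TW.B5.Iface Fermat.Agent.TW.B5.CT3Ord37
open Fermat.Agent.TW.B5.Adapt57 Coalgebra WithConv

variable {p : ℕ} [hp : Fact p.Prime]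

/-- `g ∈ G_p` moves every integral algebraic number by an element of the maximal ideal. -/
def IsInertialAlg (g : Gp p) : Prop :=
  ∀ y : AlgebraicClosure ℚ, ‖padicEmbedding p y‖ ≤ 1 →
    ‖g (padicEmbedding p y) - padicEmbedding p y‖ < 1

theorem IsInertialAlg.of_isInertial {g : Gp p} (h : IsInertial p g) : IsInertialAlg g :=
  fun _ hy => h _ hy

/-- **The local core.**  `X` flat, killed by `p ≠ 2`; every `τ` fixes `Y` pointwise and acts
trivially on `X / Y`; then every `g` which is inertial on the algebraic numbers acts trivially. -/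
theorem act_eq_of_isInertialAlg (hp2 : p ≠ 2) {X : Type} [AddCommGroup X] (act : Gp p → X → X)
    (hfl : IsFlatLocalModule p X act) (hX : ∀ x : X, p • x = 0) (Y : AddSubgroup X)
    (hY : ∀ (τ : Gp p), ∀ y ∈ Y, act τ y = y) (hXY : ∀ (τ : Gp p) (x : X), act τ x - x ∈ Y)
    (g : Gp p) (hg : IsInertialAlg g) (x : X) : act g x = x := by
  obtain ⟨H, _, _, hfin, hflat, hcocomm, e, he_mul, he_act⟩ := hfl
  have he_one : e 1 = 0 := by
    have h1 := he_mul 1 1
    rw [one_mul] at h1
    exact left_eq_add.mp h1
  have he_gal : ∀ (τ : Gp p) (f : Pts (p := p) H), e (galPt H τ f) = act τ (e f) :=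
    fun τ f => he_act τ f _ (isGalConj_galPt H τ f)
  have he_pow : ∀ (f : Pts (p := p) H) (n : ℕ), e (f ^ n) = n • e f := by
    intro f n
    induction n with
    | zero => rw [pow_zero, he_one, zero_smul]
    | succ n ih => rw [pow_succ, he_mul, ih, succ_nsmul]
  have hpow_p : ∀ f : Pts (p := p) H, f ^ p = 1 := by
    intro f
    apply e.injective
    rw [he_pow, he_one, hX]
  have hF2 := Fermat.Agent.TW.CE46.Toolkit.statementF2 p hp2 H hpow_p
  -- first application: `M` = all points, `N` = the points of `Y`
  have h1 : ∀ f : Pts (p := p) H, f ∈ red0 (p := p) H → e f ∈ Y := by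
    intro f hf
    refine hF2 Set.univ {f | e f ∈ Y}
      (by show e 1 ∈ Y; rw [he_one]; exact Y.zero_mem)
      (fun f hf g hg => by show e (f * g) ∈ Y; rw [he_mul]; exact Y.add_mem hf hg)
      (Set.mem_univ _) (fun _ _ _ _ => Set.mem_univ _) (fun _ _ => Set.mem_univ _)
      (fun τ _ f hf g hg => by
        rw [eq_galPt_of_isGalConj H hg]
        show e (galPt H τ f) ∈ Y
        rw [he_gal, hY τ _ hf]
        exact hf)
      (fun τ _ f _ g hg => by
        refine ⟨e.symm (act τ (e f) - e f), ?_, ?_⟩
        · show e (e.symm (act τ (e f) - e f)) ∈ Y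
          rw [Equiv.apply_symm_apply]
          exact hXY τ (e f)
        · rw [eq_galPt_of_isGalConj H hg]
          apply e.injective
          rw [he_mul, he_gal, Equiv.apply_symm_apply, add_sub_cancel])
      f (Set.mem_univ _) hf
  -- second application: `M` = the points of `Y`, `N = {1}`
  have h2 : ∀ f : Pts (p := p) H, f ∈ red0 (p := p) H → f = 1 := by
    intro f hf
    refine hF2 {f | e f ∈ Y} {1} rfl
      (fun f hf g hg => by
        rw [Set.mem_singleton_iff] at hf hg ⊢
        rw [hf, hg, one_mul])
      (by show e 1 ∈ Y; rw [he_one]; exact Y.zero_mem)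
      (fun f hf g hg => by show e (f * g) ∈ Y; rw [he_mul]; exact Y.add_mem hf hg)
      (fun f hf => by
        rw [Set.mem_singleton_iff] at hf
        show e f ∈ Y
        rw [hf, he_one]
        exact Y.zero_mem)
      (fun τ _ f hf g hg => by
        rw [Set.mem_singleton_iff] at hf ⊢
        rw [eq_galPt_of_isGalConj H hg]
        apply e.injective
        rw [he_gal, hf, he_one]
        have h0 := hY τ 0 Y.zero_mem
        exact h0)
      (fun τ _ f hf g hg => by
        refine ⟨1, rfl, ?_⟩
        rw [eq_galPt_of_isGalConj H hg, mul_one]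
        apply e.injective
        rw [he_gal]
        exact hY τ _ hf)
      f (h1 f hf) hf
  -- the point `f` of `x`, its conjugate and its inverse
  set f : Pts (p := p) H := e.symm x with hf
  set f' : Pts (p := p) H := e.symm (-x) with hf'
  have hff' : f * f' = 1 := by
    apply e.injective
    rw [he_mul, he_one, hf, hf', Equiv.apply_symm_apply, Equiv.apply_symm_apply, add_neg_cancel]
  have hcongr : ∀ h : H, ‖galPt H g f h - f h‖ < 1 := by
    intro h
    obtain ⟨β, hβ⟩ := FlatTransport.exists_embZ_eq H f.ofConv h
    have hβ' : padicEmbedding p β = f h := hβ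
    rw [galPt_apply, ← hβ']
    refine hg β ?_
    rw [hβ']
    exact norm_point_le_one H f h
  have h3 : galPt H g f * f' ∈ red0 (p := p) H := by
    rw [mem_red0_iff]
    intro h
    have h4 := mul_congr H (galPt H g f) f f' f' hcongr
      (fun h => by rw [sub_self, norm_zero]; exact zero_lt_one) h
    rwa [hff'] at h4
  have h5 : galPt H g f * f' = 1 := h2 _ h3
  have h6 : galPt H g f = f := by
    have h7 : galPt H g f * (f' * f) = f := by rw [← mul_assoc, h5, one_mul]
    have h8 : f' * f = 1 := by
      apply e.injective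
      rw [he_mul, he_one, hf, hf', Equiv.apply_symm_apply, Equiv.apply_symm_apply, neg_add_cancel]
    rwa [h8, mul_one] at h7
  have h9 := he_gal g f
  rw [h6, hf, Equiv.apply_symm_apply] at h9
  exact h9.symm

end Fermat.Agent.MAZ.BaseTriv64
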