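/-
Programme MAZ (S15), Selmer core, brick L-r-T (667, helper64): base case "trivial piece".

`V` a `G_ℚ`-module killed by the odd prime `r`, with TRIVIAL action; `c : Z1 galLevel V`.

* `isInertialAlg_of_mem_inertia` : `g ∈ G_r` whose image in `G_ℚ` lies in the inertia group of
  `padicPlace r` is inertial on the algebraic numbers;
* `IsFlatCochain.of_dvd` : change of modulus `N ⇝ r` (`r ∣ N`, `V` killed by `r`): if `E_c = V × ℤ/N` is
  flat, so is its quotient `V × ℤ/r`;
* **(T1) `flat_triv_unramified`** : if the class of `c` is flat at `r` then `c` vanishes on the inertia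
  group of `padicPlace r`;
* **(T2) `sel_triv_eq_bot`** : if moreover `c` vanishes on an inertia group over every prime `q ≠ r`,
  then `c = 0` (Minkowski: `S13.UnramBridge.eq_top_of_forall_exists_inertia_le`).
-/
import Mathlib
import Fermat.Agent.MAZ.BaseTriv64.Local
import Fermat.Agent.MAZ.FlatCond42.System
import Fermat.Agent.TW.TWP59.LocSurj96
import Fermat.Agent.TW.LocalGen66
import Fermat.Agent.S05.Inertia
import Fermat.Agent.S13.UnramBridge

set_option autoImplicit false
set_option linter.unusedSectionVars false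
set_option linter.style.haveILetI false

namespace Fermat.Agent.MAZ.BaseTriv64

open Fermat.Agent.Flat44 Fermat.Agent.MAZ.SelCoh42 Fermat.Agent.MAZ.FlatCond42
open Fermat.Agent.TW.B5.Iface Fermat.Agent.TW.B5.Adapt57

/-! ### Global inertia is inertial on algebraic numbers -/

theorem isInertialAlg_of_mem_inertia (r : ℕ) [Fact r.Prime] (g : Gp r)
    (h : localGaloisToGlobal r g ∈ (padicPlace r).inertiaSubgroupIn ℚ) : IsInertialAlg g := by
  intro y hy
  have hyA : y ∈ padicPlace r := (Fermat.Agent.TW.LocalGen66.mem_padicPlace_iff_norm r).2 hy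
  have h1 : localGaloisToGlobal r g y - y ∈ (padicPlace r).nonunits :=
    Fermat.Agent.S05.Inertia.apply_sub_mem_nonunits h hyA
  obtain ⟨hmem, h2⟩ := ValuationSubring.mem_nonunits_iff_exists_mem_maximalIdeal.1 h1
  have h3 := (Fermat.Agent.TW.LocalGen66.mem_maximalIdeal_iff r ⟨_, hmem⟩).1 h2
  rw [← padicEmbedding_localGaloisToGlobal, ← map_sub]
  exact h3

/-! ### Change of modulus -/

section Modulus

variable {V : Type} [AddCommGroup V] [DistribMulAction GQ V]

theorem val_castHom_nsmul {r N : ℕ} [NeZero r] [NeZero N] (hrN : r ∣ N) {y : V} (hy : r • y = 0)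
    (a : ZMod N) : (ZMod.castHom hrN (ZMod r) a).val • y = a.val • y := by
  have h1 : ZMod.castHom hrN (ZMod r) a = ((a.val : ℕ) : ZMod r) := by
    rw [ZMod.castHom_apply, ZMod.cast_eq_val]
  rw [h1, ZMod.val_natCast]
  conv_rhs => rw [← Nat.mod_add_div a.val r]
  rw [add_nsmul, mul_nsmul, hy, smul_zero, add_zero]

/-- **Change of modulus**: `E_c` for `ℤ/N` flat ⇒ `E_c` for `ℤ/r` flat (`r ∣ N`, `c` killed by `r`). -/
theorem IsFlatCochain.of_dvd {p r N : ℕ} [NeZero r] [NeZero N] (hrN : r ∣ N) {c : GQ → V}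
    (hc : ∀ σ, r • c σ = 0) (h : IsFlatCochain p N c) : IsFlatCochain p r c := by
  let g : V × ZMod N →+ V × ZMod r :=
    { toFun := fun e => (e.1, ZMod.castHom hrN (ZMod r) e.2)
      map_zero' := by
        apply Prod.ext
        · rfl
        · exact map_zero _
      map_add' := fun e e' => by
        apply Prod.ext
        · rfl
        · exact map_add _ _ _ }
  refine hasFlatModel_of_surjective h g (fun e => ?_) fun σ e => ?_
  · obtain ⟨a, ha⟩ := ZMod.castHom_surjective hrN e.2
    exact ⟨(e.1, a), Prod.ext rfl ha⟩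
  · apply Prod.ext
    · show σ • e.1 + e.2.val • c σ = σ • e.1 + (ZMod.castHom hrN (ZMod r) e.2).val • c σ
      rw [val_castHom_nsmul hrN (hc σ)]
    · rfl

end Modulus

/-! ### (T1) and (T2) -/

section Main

variable (r : ℕ) [Fact r.Prime] {V : Type} [AddCommGroup V] [DistribMulAction GQ V]

/-- **(T1)** A flat extension of `ℤ/N` by a module with trivial action killed by `r` (odd) is
unramified at `r`. -/
theorem flat_triv_unramified (hr2 : r ≠ 2) (N : ℕ) [NeZero N] (hrN : r ∣ N)
    (hV : ∀ x : V, r • x = 0) (htriv : ∀ (σ : GQ) (x : V), σ • x = x)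
    (c : Z1 galLevel V) (hc : IsFlatCochain r N c.1) :
    ∀ σ ∈ (padicPlace r).inertiaSubgroupIn ℚ, c.1 σ = 0 := by
  intro σ hσ
  have hr : r.Prime := Fact.out
  haveI : NeZero r := ⟨hr.ne_zero⟩
  haveI : Fact (1 < r) := ⟨hr.one_lt⟩
  -- the quotient `V × ℤ/r` of `E_c`, a flat local module
  have hc' : IsFlatCochain r r c.1 := IsFlatCochain.of_dvd hrN (fun σ => hV _) hc
  have hloc := FlatTransport.isFlatLocalModule_of_isFlatGaloisModule (p := r) (extAct r c.1) hc'
  -- killed by `r`
  have hX : ∀ x : V × ZMod r, r • x = 0 := by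
    intro x
    apply Prod.ext
    · exact hV x.1
    · show r • x.2 = 0
      rw [nsmul_eq_mul, ZMod.natCast_self, zero_mul]
  -- the subgroup `V × 0`
  let Y : AddSubgroup (V × ZMod r) :=
    { carrier := {e | e.2 = 0}
      zero_mem' := rfl
      add_mem' := fun {a b} ha hb => by
        show a.2 + b.2 = 0
        rw [ha, hb, add_zero]
      neg_mem' := fun {a} ha => by
        show -a.2 = 0
        rw [ha, neg_zero] }
  have hY : ∀ (τ : Gp r), ∀ y ∈ Y, extAct r c.1 (localGaloisToGlobal r τ) y = y := by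
    intro τ y hy
    have hy2 : y.2 = 0 := hy
    apply Prod.ext
    · show localGaloisToGlobal r τ • y.1 + y.2.val • c.1 (localGaloisToGlobal r τ) = y.1
      rw [hy2, ZMod.val_zero, zero_smul, add_zero, htriv]
    · rfl
  have hXY : ∀ (τ : Gp r) (x : V × ZMod r),
      extAct r c.1 (localGaloisToGlobal r τ) x - x ∈ Y := by
    intro τ x
    show (extAct r c.1 (localGaloisToGlobal r τ) x - x).2 = 0
    rw [Prod.snd_sub, extAct_snd, sub_self]
  -- a local lift of `σ`
  obtain ⟨g, hg⟩ := Fermat.Agent.TW.TWP59.LocSurj96.localGaloisToGlobal_surjOn r σ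
    (Fermat.Agent.S05.Inertia.mem_decompositionSubgroup hσ)
  have hgI : IsInertialAlg g := isInertialAlg_of_mem_inertia r g (by rw [hg]; exact hσ)
  have key := act_eq_of_isInertialAlg hr2 (fun τ => extAct r c.1 (localGaloisToGlobal r τ)) hloc hX Y
    hY hXY g hgI ((0 : V), (1 : ZMod r))
  have k1 := congrArg Prod.fst key
  simp only [extAct_fst] at k1
  rw [hg, smul_zero, zero_add, ZMod.val_one, one_smul] at k1
  exact k1

/-- **(T2)** The Selmer group of a module with trivial action killed by `r` (odd) vanishes: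
a cocycle which is flat at `r` and unramified at every other prime is zero. -/
theorem sel_triv_eq_bot (hr2 : r ≠ 2) (N : ℕ) [NeZero N] (hrN : r ∣ N)
    (hV : ∀ x : V, r • x = 0) (htriv : ∀ (σ : GQ) (x : V), σ • x = x)
    (c : Z1 galLevel V) (hc : IsFlatCochain r N c.1)
    (hunr : ∀ q : ℕ, q.Prime → q ≠ r → ∃ A : ValuationSubring (AlgebraicClosure ℚ),
      A.LiesOverPrime q ∧ ∀ σ ∈ A.inertiaSubgroupIn ℚ, c.1 σ = 0) : c = 0 := by
  -- `c` is a homomorphism
  have hmul : ∀ σ τ : GQ, c.1 (σ * τ) = c.1 σ + c.1 τ := by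
    intro σ τ
    rw [Z1.map_mul, htriv]
  have hone : c.1 1 = 0 := Z1.map_one galLevel c
  have hinv : ∀ σ : GQ, c.1 σ⁻¹ = -c.1 σ := by
    intro σ
    have h := hmul σ σ⁻¹
    rw [mul_inv_cancel, hone] at h
    exact eq_neg_of_add_eq_zero_right h.symm
  let K : Subgroup GQ :=
    { carrier := {σ | c.1 σ = 0}
      mul_mem' := fun {a b} ha hb => by
        show c.1 (a * b) = 0
        rw [hmul, ha, hb, add_zero]
      one_mem' := hone
      inv_mem' := fun {a} ha => by
        show c.1 a⁻¹ = 0
        rw [hinv, ha, neg_zero] }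
  haveI : K.Normal :=
    ⟨fun n hn g => by
      show c.1 (g * n * g⁻¹) = 0
      have hn' : c.1 n = 0 := hn
      rw [hmul, hmul, hn', add_zero, hinv, add_neg_cancel]⟩
  obtain ⟨U, ⟨F, hF, rfl⟩, hU⟩ := Z1.exists_level galLevel c
  haveI := hF
  have htop : K = ⊤ := by
    refine Fermat.Agent.S13.UnramBridge.eq_top_of_forall_exists_inertia_le K F
      (fun s hs => hU s hs) fun q hq => ?_
    by_cases hqr : q = r
    · subst hqr
      exact ⟨padicPlace q, Fermat.Agent.TW.LocalGen66.liesOverPrime_padicPlace q,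
        fun σ hσ => flat_triv_unramified q hr2 N hrN hV htriv c hc σ hσ⟩
    · obtain ⟨A, hA, hAc⟩ := hunr q hq hqr
      exact ⟨A, hA, fun σ hσ => hAc σ hσ⟩
  apply Subtype.ext
  funext σ
  have hσ : σ ∈ K := by rw [htop]; exact Subgroup.mem_top σ
  exact hσ

end Main

end Fermat.Agent.MAZ.BaseTriv64
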